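import Fermat.Agent.SW.K1F.Literal

/-!
# MOONSHOT S52, block K1, leaf F (DESCENT), file 6: normalising the generator

`exists_pole_generator` : if `Ω = L(w)` (inside `Fb`) and the residue field of `O` is `L`, then `Ω` has
a generator `w₁ ∉ O` (if `w ∈ O` with residue `c`, take `w₁ := 1/(w - c)`).
-/

set_option autoImplicit false

namespace Fermat.Agent.SW.K1F

open IntermediateField

section Normalize

variable {F0 Fb L : Type*} [Field F0] [Field Fb] [Algebra F0 Fb] [Field L] [Algebra L Fb]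

/-- a generator with a pole at `O`. -/
theorem exists_pole_generator (Ω : IntermediateField F0 Fb)
    (hLΩ : ∀ z : L, algebraMap L Fb z ∈ Ω)
    (O : ValuationSubring Fb)
    (hPLres : ∀ x ∈ Ω, x ∈ O → ∃ c : L, O.valuation (x - algebraMap L Fb c) < 1)
    (w : Fb) (hwΩ : w ∈ Ω) (hw : ∀ x ∈ Ω, x ∈ IntermediateField.adjoin L {w})
    (hwc : w ∉ Set.range (algebraMap L Fb)) :
    ∃ w₁ : Fb, w₁ ∈ Ω ∧ (∀ x ∈ Ω, x ∈ IntermediateField.adjoin L {w₁}) ∧ w₁ ∉ O := by
  by_cases hwO : w ∈ O
  · obtain ⟨c, hc⟩ := hPLres w hwΩ hwO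
    have hne : w - algebraMap L Fb c ≠ 0 := by
      intro h
      exact hwc ⟨c, (sub_eq_zero.mp h).symm⟩
    refine ⟨(w - algebraMap L Fb c)⁻¹, Ω.inv_mem (Ω.sub_mem hwΩ (hLΩ c)), ?_, ?_⟩
    · intro x hx
      have hle : IntermediateField.adjoin L {w}
          ≤ IntermediateField.adjoin L {(w - algebraMap L Fb c)⁻¹} := by
        rw [IntermediateField.adjoin_simple_le_iff]
        set F := IntermediateField.adjoin L {(w - algebraMap L Fb c)⁻¹} with hF
        have h1 : (w - algebraMap L Fb c)⁻¹ ∈ F := IntermediateField.mem_adjoin_simple_self L _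
        have h2 : w = ((w - algebraMap L Fb c)⁻¹)⁻¹ + algebraMap L Fb c := by
          rw [inv_inv]; ring
        rw [h2]
        exact F.add_mem (F.inv_mem h1) (F.algebraMap_mem c)
      exact hle (hw x hx)
    · intro hmem
      have h1 : O.valuation (w - algebraMap L Fb c)⁻¹ ≤ 1 :=
        (ValuationSubring.valuation_le_one_iff O _).mpr hmem
      have h2 : 1 < O.valuation (w - algebraMap L Fb c)⁻¹ :=
        (Valuation.val_lt_one_iff _ hne).mp hc
      exact absurd h1 (not_le.mpr h2)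
  · exact ⟨w, hwΩ, hw, hwO⟩

end Normalize

end Fermat.Agent.SW.K1F
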