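import Fermat.Agent.SW.K1F.Extras

/-!
# MOONSHOT S52, block K1, leaf F (DESCENT), file 4: the descended parameter

`exists_descent_param` : `Ω = L(w)` a rational function field over the algebraically closed `L`,
embedded in a field `Fb` carrying a valuation subring `O ⊇ L` with `w ∉ O` (the place `w = ∞`);
`Γ ↠ Gal(L/K)` acts smoothly and semilinearly on `Ω` with `γ w = α_γ w + β_γ`
(`α_γ, β_γ ∈ L`: the action preserves the place).  Then there is a `Γ`-fixed `s ∈ Ω` with
`O.valuation s < 1`, transcendental over `K` and over `L`, `L(s) = Ω` and `Ω^Γ = K(s)`.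
-/

set_option autoImplicit false

namespace Fermat.Agent.SW.K1F

open Polynomial

section Param

variable {K L Ω Fb : Type*} [Field K] [Field L] [Algebra K L] [IsGalois K L] [IsAlgClosed L]
  [Field Ω] [Algebra L Ω] [Algebra K Ω] [IsScalarTower K L Ω] [Field Fb] [Algebra Ω Fb]
variable {Γ : Type*} [Group Γ] (ρ : Γ →* (L ≃ₐ[K] L)) (act : Γ →* (Ω ≃+* Ω))

omit [IsGalois K L] [IsAlgClosed L] [Algebra K Ω] [IsScalarTower K L Ω] in
/-- an affine function `a + b w` of `w ∉ O` with `b ≠ 0` is not in `O` either. -/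
theorem affine_notMem (O : ValuationSubring Fb)
    (hLO : ∀ c : L, algebraMap Ω Fb (algebraMap L Ω c) ∈ O)
    {w : Ω} (hwO : algebraMap Ω Fb w ∉ O) (a b : L) (hb : b ≠ 0) :
    algebraMap Ω Fb (algebraMap L Ω a + algebraMap L Ω b * w) ∉ O := by
  intro h
  apply hwO
  have hb' : algebraMap Ω Fb (algebraMap L Ω b⁻¹) ∈ O := hLO _
  have ha' : algebraMap Ω Fb (algebraMap L Ω a) ∈ O := hLO _
  have hw : algebraMap Ω Fb w = algebraMap Ω Fb (algebraMap L Ω b⁻¹) *
      (algebraMap Ω Fb (algebraMap L Ω a + algebraMap L Ω b * w)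
        - algebraMap Ω Fb (algebraMap L Ω a)) := by
    rw [← map_sub, ← map_mul]
    congr 1
    have hbne : algebraMap L Ω b ≠ 0 := by
      simpa using (map_ne_zero (algebraMap L Ω)).mpr hb
    rw [map_inv₀]
    field_simp
    ring
  rw [hw]
  exact O.mul_mem _ _ hb' (O.sub_mem h ha')

/-- **the descended parameter.** -/
theorem exists_descent_param
    (hsemi : ∀ γ c, act γ (algebraMap L Ω c) = algebraMap L Ω (ρ γ c))
    (hsurj : Function.Surjective ρ)
    (hsmooth : ∀ x : Ω, ∃ E : IntermediateField K L, FiniteDimensional K E ∧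
      ∀ γ, ρ γ ∈ E.fixingSubgroup → act γ x = x)
    (O : ValuationSubring Fb) (hLO : ∀ c : L, algebraMap Ω Fb (algebraMap L Ω c) ∈ O)
    (w : Ω) (hw : IntermediateField.adjoin L {w} = ⊤) (hwO : algebraMap Ω Fb w ∉ O)
    (hstab : ∀ γ, ∃ α β : L, act γ w = algebraMap L Ω α * w + algebraMap L Ω β) :
    ∃ s : Ω, (∀ γ, act γ s = s) ∧ O.valuation (algebraMap Ω Fb s) < 1 ∧ Transcendental K s ∧
      Transcendental L s ∧ IntermediateField.adjoin L {s} = ⊤ ∧
      ∀ x : Ω, (∀ γ, act γ x = x) ↔ x ∈ IntermediateField.adjoin K {s} := by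
  classical
  -- `w` is not a constant
  have hwc : w ∉ Set.range (algebraMap L Ω) := by
    rintro ⟨c, rfl⟩
    exact hwO (hLO c)
  -- the stable plane
  let V : Submodule L Ω := Submodule.span L {1, w}
  have hVmem : ∀ v : Ω, v ∈ V ↔ ∃ a b : L, v = algebraMap L Ω a + algebraMap L Ω b * w := by
    intro v
    constructor
    · intro hv
      obtain ⟨a, b, rfl⟩ := Submodule.mem_span_pair.mp hv
      exact ⟨a, b, by simp [Algebra.smul_def]⟩
    · rintro ⟨a, b, rfl⟩
      exact Submodule.mem_span_pair.mpr ⟨a, b, by simp [Algebra.smul_def]⟩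
  have hV : ∀ γ, ∀ v ∈ V, act γ v ∈ V := by
    intro γ v hv
    obtain ⟨a, b, rfl⟩ := (hVmem v).mp hv
    obtain ⟨α, β, hαβ⟩ := hstab γ
    refine (hVmem _).mpr ⟨ρ γ a + ρ γ b * β, ρ γ b * α, ?_⟩
    simp only [map_add, map_mul, hsemi, hαβ]
    ring
  have hli : LinearIndependent L ![(1 : Ω), w] := by
    rw [LinearIndependent.pair_iff]
    intro a b hab
    have hb : b = 0 := by
      by_contra hb
      apply hwc
      refine ⟨-(a / b), ?_⟩
      have hbne : algebraMap L Ω b ≠ 0 := (map_ne_zero (algebraMap L Ω)).mpr hb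
      have h1 : algebraMap L Ω a + algebraMap L Ω b * w = 0 := by
        simpa [Algebra.smul_def] using hab
      rw [map_neg, map_div₀]
      field_simp
      linear_combination -h1
    subst hb
    have ha : algebraMap L Ω a = 0 := by simpa [Algebra.smul_def] using hab
    exact ⟨(map_eq_zero (algebraMap L Ω)).mp ha, rfl⟩
  have hdim : 2 ≤ Module.finrank L V := by
    have h2 : Module.finrank L (Submodule.span L (Set.range ![(1 : Ω), w])) = 2 := by
      rw [finrank_span_eq_card hli]; simp
    have hrange : Set.range ![(1 : Ω), w] = {1, w} := by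
      ext x; simp [Set.mem_insert_iff, eq_comm, or_comm]
    rw [hrange] at h2
    exact h2.ge
  have hgen : ∀ v ∈ V, v ∉ Set.range (algebraMap L Ω) →
      IntermediateField.adjoin L {v} = ⊤ := by
    intro v hv hvc
    obtain ⟨a, b, rfl⟩ := (hVmem v).mp hv
    have hb : b ≠ 0 := by
      rintro rfl
      exact hvc ⟨a, by simp⟩
    have hbne : algebraMap L Ω b ≠ 0 := (map_ne_zero (algebraMap L Ω)).mpr hb
    rw [eq_top_iff, ← hw, IntermediateField.adjoin_simple_le_iff]
    set F := IntermediateField.adjoin L {algebraMap L Ω a + algebraMap L Ω b * w} with hF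
    have h1 : algebraMap L Ω a + algebraMap L Ω b * w ∈ F :=
      IntermediateField.mem_adjoin_simple_self L _
    have h2 : w = (algebraMap L Ω b)⁻¹ *
        ((algebraMap L Ω a + algebraMap L Ω b * w) - algebraMap L Ω a) := by
      field_simp
      ring
    rw [h2]
    exact F.mul_mem (F.inv_mem (F.algebraMap_mem b)) (F.sub_mem h1 (F.algebraMap_mem a))
  obtain ⟨s', hs'V, hs'fix, hs'L, hs'K, hs'gen, hs'iff⟩ :=
    exists_fixed_generator ρ act hsemi hsurj hsmooth V hV hdim hgen
  -- `s'` is not in `O`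
  obtain ⟨a, b, hs'ab⟩ := (hVmem s').mp hs'V
  have hb : b ≠ 0 := by
    rintro rfl
    apply hs'L
    rw [hs'ab]
    simpa using isAlgebraic_algebraMap (R := L) (A := Ω) a
  have hs'O : algebraMap Ω Fb s' ∉ O := by
    rw [hs'ab]; exact affine_notMem O hLO hwO a b hb
  have hs'0 : s' ≠ 0 := by
    rintro rfl
    exact hs'O (by simp)
  have hadjK : IntermediateField.adjoin K {s'⁻¹} = IntermediateField.adjoin K {s'} := by
    apply le_antisymm
    · rw [IntermediateField.adjoin_simple_le_iff]
      exact IntermediateField.inv_mem _ (IntermediateField.mem_adjoin_simple_self K s')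
    · rw [IntermediateField.adjoin_simple_le_iff]
      have := IntermediateField.inv_mem _ (IntermediateField.mem_adjoin_simple_self K s'⁻¹)
      simpa using this
  have hadjL : IntermediateField.adjoin L {s'⁻¹} = IntermediateField.adjoin L {s'} := by
    apply le_antisymm
    · rw [IntermediateField.adjoin_simple_le_iff]
      exact IntermediateField.inv_mem _ (IntermediateField.mem_adjoin_simple_self L s')
    · rw [IntermediateField.adjoin_simple_le_iff]
      have := IntermediateField.inv_mem _ (IntermediateField.mem_adjoin_simple_self L s'⁻¹)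
      simpa using this
  refine ⟨s'⁻¹, fun γ => by rw [map_inv₀, hs'fix], ?_, ?_, ?_, by rw [hadjL, hs'gen], ?_⟩
  · rw [map_inv₀, ← Valuation.one_lt_val_iff _ (by simpa using hs'0)]
    rw [← not_le, ValuationSubring.valuation_le_one_iff]
    exact hs'O
  · exact fun h => hs'K (IsAlgebraic.inv_iff.mp h)
  · exact fun h => hs'L (IsAlgebraic.inv_iff.mp h)
  · intro x
    rw [hadjK]
    exact hs'iff x

end Param

end Fermat.Agent.SW.K1F
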