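import Fermat.Agent.SW.K1.Leaves
import Fermat.Agent.SW.K1F.Param
import Fermat.Agent.SW.K1F.Normalize
import Fermat.Agent.SW.K1d.Moebius

/-!
# MOONSHOT S52 (Program F), block K1: `leafF : Leaves.LeafF`

The literal leaf F of `SW/K1/Leaves.lean` (helper13), from `exists_descent_param`
(Speiser + rationality), `exists_pole_generator` and helper22's `Moebius.affine_of_preserves`.
-/

set_option autoImplicit false
set_option linter.style.haveILetI false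

namespace Fermat.Agent.SW.K1F

open IntermediateField Fermat.Agent.SW.Contracts Fermat.Agent.SW.K1

section ActOn

variable {F0' Fb : Type*} [Field F0'] [Field Fb] [Algebra F0' Fb]
variable (Ω : IntermediateField F0' Fb) (D : Subgroup (Fb ≃ₐ[F0'] Fb))

/-- the restriction of `σ ∈ D` to a `D`-stable intermediate field, as a ring homomorphism. -/
noncomputable def resHomOn (hΩ : ∀ σ ∈ D, ∀ z ∈ Ω, σ z ∈ Ω) (σ : ↥D) : ↥Ω →+* ↥Ω :=
  RingHom.codRestrict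
    (((σ.1 : Fb ≃ₐ[F0'] Fb) : Fb →+* Fb).comp (algebraMap ↥Ω Fb)) Ω
    (fun x => hΩ σ.1 σ.2 x.1 x.2)

@[simp] theorem coe_resHomOn (hΩ : ∀ σ ∈ D, ∀ z ∈ Ω, σ z ∈ Ω) (σ : ↥D) (x : ↥Ω) :
    ((resHomOn Ω D hΩ σ x : ↥Ω) : Fb) = σ.1 (x : Fb) := rfl

/-- the action of `D` on a `D`-stable intermediate field. -/
noncomputable def actOn (hΩ : ∀ σ ∈ D, ∀ z ∈ Ω, σ z ∈ Ω) : ↥D →* (↥Ω ≃+* ↥Ω) where
  toFun σ := RingEquiv.ofRingHom (resHomOn Ω D hΩ σ) (resHomOn Ω D hΩ σ⁻¹)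
    (by ext x; simp) (by ext x; simp)
  map_one' := by ext x; simp
  map_mul' σ τ := by ext x; simp [AlgEquiv.mul_apply]

@[simp] theorem coe_actOn (hΩ : ∀ σ ∈ D, ∀ z ∈ Ω, σ z ∈ Ω) (σ : ↥D) (x : ↥Ω) :
    ((actOn Ω D hΩ σ x : ↥Ω) : Fb) = σ.1 (x : Fb) := rfl

end ActOn

/-- transport of `Ω = L(w)` from `Fb` to the subtype (any base field of the intermediate field). -/
theorem adjoin_eq_top_of_forall_mem' {F0' Fb L : Type*} [Field F0'] [Field Fb] [Algebra F0' Fb]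
    [Field L] [Algebra L Fb] (Ω : IntermediateField F0' Fb) [Algebra L ↥Ω]
    [IsScalarTower L ↥Ω Fb] (w' : ↥Ω)
    (hw : ∀ x ∈ Ω, x ∈ IntermediateField.adjoin L {(w' : Fb)}) :
    IntermediateField.adjoin L {w'} = ⊤ := by
  let ψL : ↥Ω →ₐ[L] Fb := IsScalarTower.toAlgHom L ↥Ω Fb
  have hψLinj : Function.Injective ψL := fun x y h => Subtype.ext h
  rw [eq_top_iff]
  intro x _
  have h1 : ψL x ∈ (IntermediateField.adjoin L {w'}).map ψL := by
    rw [IntermediateField.adjoin_map, Set.image_singleton]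
    exact hw x.1 x.2
  obtain ⟨y, hy, hyx⟩ := h1
  rwa [← hψLinj hyx]

/-- **Leaf F (DESCENT)** in the literal form of `SW/K1/Leaves.lean`. -/
theorem leafF : Leaves.LeafF := by
  intro Fb _ _ _ _ _ O hLO hPLres Ω hLΩ w hwΩ hw D hDO hDsurj hΩ hsmooth
  classical
  haveI : IsGalois ℚ Qb := isGalois_rat
  -- `w` is not a constant
  have hwc : w ∉ Set.range (algebraMap Qb Fb) := by
    rintro ⟨c, rfl⟩
    have hX : algebraMap F0 Fb RatFunc.X ∈ IntermediateField.adjoin Qb {algebraMap Qb Fb c} :=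
      hw _ (Ω.algebraMap_mem _)
    have hbot : IntermediateField.adjoin Qb {algebraMap Qb Fb c} = ⊥ := by
      rw [IntermediateField.adjoin_simple_eq_bot_iff]
      exact IntermediateField.algebraMap_mem ⊥ c
    rw [hbot, IntermediateField.mem_bot] at hX
    obtain ⟨q, hq⟩ := hX
    have hqalg : IsAlgebraic ℚ q := Algebra.IsAlgebraic.isAlgebraic q
    have h1 : IsAlgebraic ℚ (algebraMap Qb Fb q) := hqalg.algebraMap
    rw [hq] at h1
    have h2 : IsAlgebraic ℚ (RatFunc.X : F0) :=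
      (isAlgebraic_algebraMap_iff (algebraMap F0 Fb).injective).mp h1
    have h3 : @IsAlgebraic ℚ (RatFunc ℚ) _ _ (RatFunc.instAlgebraOfPolynomial ℚ ℚ)
        (RatFunc.X : RatFunc ℚ) := by
      have hsub : (RatFunc.instAlgebraOfPolynomial ℚ ℚ : Algebra ℚ (RatFunc ℚ))
          = DivisionRing.toRatAlgebra := Subsingleton.elim _ _
      rw [hsub]
      exact h2
    exact (RatFunc.transcendental_X (K := ℚ)) h3
  -- a generator with a pole at `O`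
  obtain ⟨w₁, hw₁Ω, hw₁, hw₁O⟩ :=
    exists_pole_generator Ω hLΩ O (fun x _ hx => hPLres x hx) w hwΩ hw hwc
  -- the constants inside `Ω`
  let ιL : Qb →+* ↥Ω := RingHom.codRestrict (algebraMap Qb Fb) Ω hLΩ
  letI algL : Algebra Qb ↥Ω := ιL.toAlgebra
  haveI : IsScalarTower ℚ Qb ↥Ω := IsScalarTower.of_algebraMap_eq' (Subsingleton.elim _ _)
  haveI : IsScalarTower Qb ↥Ω Fb := IsScalarTower.of_algebraMap_eq (fun x => rfl)
  haveI : IsScalarTower ℚ ↥Ω Fb := IsScalarTower.of_algebraMap_eq' (Subsingleton.elim _ _)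
  let ψK : ↥Ω →ₐ[ℚ] Fb := IsScalarTower.toAlgHom ℚ ↥Ω Fb
  have hψKinj : Function.Injective ψK := fun x y h => Subtype.ext h
  -- the group data
  let ρ : ↥D →* (Qb ≃ₐ[ℚ] Qb) := (res Fb).comp D.subtype
  have hsurj : Function.Surjective ρ := by
    intro τ
    obtain ⟨σ, hσ, rfl⟩ := hDsurj τ
    exact ⟨⟨σ, hσ⟩, rfl⟩
  have hsemi : ∀ (γ : ↥D) (c : Qb), actOn Ω D hΩ γ (algebraMap Qb ↥Ω c)
      = algebraMap Qb ↥Ω (ρ γ c) := by
    intro γ c
    apply Subtype.ext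
    change γ.1 (algebraMap Qb Fb c) = algebraMap Qb Fb (res Fb γ.1 c)
    exact (algebraMap_res γ.1 c).symm
  have hsmooth' : ∀ x : ↥Ω, ∃ E : IntermediateField ℚ Qb, FiniteDimensional ℚ E ∧
      ∀ γ : ↥D, ρ γ ∈ E.fixingSubgroup → actOn Ω D hΩ γ x = x := by
    intro x
    obtain ⟨E, hE, hEx⟩ := hsmooth x.1 x.2
    refine ⟨E, hE, fun γ hγ => Subtype.ext (hEx γ.1 γ.2 ?_)⟩
    exact (IntermediateField.mem_fixingSubgroup_iff E _).mp hγ
  have hLO' : ∀ c : Qb, algebraMap ↥Ω Fb (algebraMap Qb ↥Ω c) ∈ O := fun c => hLO c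
  let w' : ↥Ω := ⟨w₁, hw₁Ω⟩
  have hw' : IntermediateField.adjoin Qb {w'} = ⊤ := adjoin_eq_top_of_forall_mem' Ω w' hw₁
  have hstab' : ∀ γ : ↥D, ∃ α β : Qb, actOn Ω D hΩ γ w'
      = algebraMap Qb ↥Ω α * w' + algebraMap Qb ↥Ω β := by
    intro γ
    exact Fermat.Agent.SW.K1d.Moebius.affine_of_preserves (L := Qb) (Ω := ↥Ω) (Fb := Fb) O hLO'
      w' hw' hw₁O (actOn Ω D hΩ γ) ((ρ γ : Qb ≃ₐ[ℚ] Qb) : Qb ≃+* Qb)
      (fun c => hsemi γ c)
      (fun x => ((mem_decomp Fb).mp (hDO γ.2) (x : Fb)).symm)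
  obtain ⟨s, hsfix, hsval, hsK, -, -, hsiff⟩ :=
    exists_descent_param (K := ℚ) (L := Qb) (Ω := ↥Ω) (Fb := Fb) ρ
      (actOn Ω D hΩ) hsemi hsurj hsmooth' O hLO' w' hw' hw₁O hstab'
  refine ⟨(s : Fb), s.2, fun σ hσ => congrArg Subtype.val (hsfix ⟨σ, hσ⟩), hsval, ?_, ?_⟩
  · intro halg
    apply hsK
    have : IsAlgebraic ℚ (ψK s) := halg
    exact (isAlgebraic_algHom_iff ψK hψKinj).mp this
  · intro z hzΩ hzfix
    have hzfix' : ∀ γ : ↥D, actOn Ω D hΩ γ ⟨z, hzΩ⟩ = ⟨z, hzΩ⟩ :=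
      fun γ => Subtype.ext (hzfix γ.1 γ.2)
    have h1 := (hsiff ⟨z, hzΩ⟩).mp hzfix'
    have h2 : ψK ⟨z, hzΩ⟩ ∈ (IntermediateField.adjoin ℚ {s}).map ψK := ⟨_, h1, rfl⟩
    rw [IntermediateField.adjoin_map, Set.image_singleton] at h2
    exact h2

end Fermat.Agent.SW.K1F
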