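import Fermat.Agent.SW.K1F.Rational

/-!
# MOONSHOT S52, block K1, leaf F (DESCENT), file 3: small adapters

* `transcendental_of_notMem_range` : over an algebraically closed `L`, a non-constant element of a
  field extension is transcendental.
* `transcendental_bot_of_transcendental` : transcendence over `L` gives transcendence over `K`.
* `exists_fixed_generator` : (F2)+(F3) packaged: a stable `L`-subspace `V` of dimension `≥ 2` all of
  whose non-constant elements generate `Ω` over `L` yields `s` with `Ω^Γ = K(s)`.
-/

set_option autoImplicit false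

namespace Fermat.Agent.SW.K1F

open Polynomial

/-- over an algebraically closed field, a non-constant element of a field extension is
transcendental. -/
theorem transcendental_of_notMem_range {L Ω : Type*} [Field L] [IsAlgClosed L] [Field Ω]
    [Algebra L Ω] {s : Ω} (hs : s ∉ Set.range (algebraMap L Ω)) : Transcendental L s := by
  intro halg
  apply hs
  have hint : IsIntegral L s := halg.isIntegral
  have hdeg : (minpoly L s).degree = 1 :=
    IsAlgClosed.degree_eq_one_of_irreducible L (minpoly.irreducible hint)
  exact minpoly.mem_range_of_degree_eq_one L s hdeg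

/-- transcendence over `L` gives transcendence over `K`. -/
theorem transcendental_bot_of_transcendental {K L Ω : Type*} [Field K] [Field L] [Algebra K L]
    [Field Ω] [Algebra L Ω] [Algebra K Ω] [IsScalarTower K L Ω] {s : Ω}
    (hs : Transcendental L s) : Transcendental K s :=
  Transcendental.of_tower_top (K := K) (L := L) hs

section Packaged

variable {K L Ω : Type*} [Field K] [Field L] [Algebra K L] [IsGalois K L] [IsAlgClosed L]
  [Field Ω] [Algebra L Ω] [Algebra K Ω] [IsScalarTower K L Ω]
variable {Γ : Type*} [Group Γ] (ρ : Γ →* (L ≃ₐ[K] L)) (act : Γ →* (Ω ≃+* Ω))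

/-- (F2)+(F3) packaged for the consumer: `V` a stable `L`-subspace of `Ω` of dimension at least two,
every non-constant element of which generates `Ω` over `L` (genus `0`: `V = L(P)`, `deg P = 1`).
Then there is a fixed `s ∈ V`, transcendental over `L` and over `K`, with `Ω^Γ = K(s)`. -/
theorem exists_fixed_generator
    (hsemi : ∀ γ c, act γ (algebraMap L Ω c) = algebraMap L Ω (ρ γ c))
    (hsurj : Function.Surjective ρ)
    (hsmooth : ∀ x : Ω, ∃ E : IntermediateField K L, FiniteDimensional K E ∧
      ∀ γ, ρ γ ∈ E.fixingSubgroup → act γ x = x)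
    (V : Submodule L Ω) (hV : ∀ γ, ∀ v ∈ V, act γ v ∈ V)
    (hdim : 2 ≤ Module.finrank L V)
    (hgen : ∀ v ∈ V, v ∉ Set.range (algebraMap L Ω) → IntermediateField.adjoin L {v} = ⊤) :
    ∃ s ∈ V, (∀ γ, act γ s = s) ∧ Transcendental L s ∧ Transcendental K s ∧
      IntermediateField.adjoin L {s} = ⊤ ∧
      ∀ x : Ω, (∀ γ, act γ x = x) ↔ x ∈ IntermediateField.adjoin K {s} := by
  obtain ⟨s, hsV, hsfix, hsc⟩ := exists_fixed_not_const ρ act hsemi hsurj hsmooth V hV hdim
  have hst : Transcendental L s := transcendental_of_notMem_range hsc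
  exact ⟨s, hsV, hsfix, hst, transcendental_bot_of_transcendental hst, hgen s hsV hsc,
    fixed_iff_mem_adjoin ρ act hsemi hsurj hsfix hst (hgen s hsV hsc)⟩

end Packaged

end Fermat.Agent.SW.K1F
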