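import Fermat.Agent.SW.K1F.Param

/-!
# MOONSHOT S52, block K1, leaf F (DESCENT), file 5: the literal output inside `Fb`

Concrete adapter: `G := Fb ≃ₐ[F0] Fb`, subgroups `D` (decomposition group of `O`), `N` (trivial on the
constants, normalised by `D`), `H = D · N`; `Ω := fixedField N = L(w)`.  Output: a parameter `s` of
`F' := fixedField H` with `O.valuation s < 1`, transcendental over `K`, and `F' ⊆ K(s)`.
-/

set_option autoImplicit false
set_option linter.style.haveILetI false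

namespace Fermat.Agent.SW.K1F

open IntermediateField

section Literal

variable {F0 Fb K L : Type*} [Field F0] [Field Fb] [Algebra F0 Fb]
  [Field K] [Field L] [Algebra K L]
  [Algebra L Fb] [Algebra K Fb] [IsScalarTower K L Fb]

variable (D N : Subgroup (Fb ≃ₐ[F0] Fb))

/-- `σ ∈ D` maps the fixed field of `N` into itself when `D` normalises `N`. -/
theorem apply_mem_fixedField (hDN : ∀ σ ∈ D, ∀ n ∈ N, σ⁻¹ * n * σ ∈ N)
    {σ : Fb ≃ₐ[F0] Fb} (hσ : σ ∈ D) {x : Fb} (hx : x ∈ fixedField N) : σ x ∈ fixedField N := by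
  rw [mem_fixedField_iff] at hx ⊢
  intro n hn
  have h1 := hx _ (hDN σ hσ n hn)
  have h2 : σ ((σ⁻¹ * n * σ) x) = σ x := by rw [h1]
  simpa [AlgEquiv.mul_apply] using h2

/-- the restriction of `σ ∈ D` to the fixed field of `N`, as a ring homomorphism. -/
noncomputable def resHom (hDN : ∀ σ ∈ D, ∀ n ∈ N, σ⁻¹ * n * σ ∈ N) (σ : ↥D) :
    ↥(fixedField N) →+* ↥(fixedField N) :=
  RingHom.codRestrict
    (((σ.1 : Fb ≃ₐ[F0] Fb) : Fb →+* Fb).comp (algebraMap ↥(fixedField N) Fb)) (fixedField N)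
    (fun x => apply_mem_fixedField D N hDN σ.2 x.2)

@[simp] theorem coe_resHom (hDN : ∀ σ ∈ D, ∀ n ∈ N, σ⁻¹ * n * σ ∈ N) (σ : ↥D)
    (x : ↥(fixedField N)) : ((resHom D N hDN σ x : ↥(fixedField N)) : Fb) = σ.1 (x : Fb) := rfl

/-- the action of `D` on the fixed field of `N`. -/
noncomputable def actFixed (hDN : ∀ σ ∈ D, ∀ n ∈ N, σ⁻¹ * n * σ ∈ N) :
    ↥D →* (↥(fixedField N) ≃+* ↥(fixedField N)) where
  toFun σ := RingEquiv.ofRingHom (resHom D N hDN σ) (resHom D N hDN σ⁻¹)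
    (by ext x; simp) (by ext x; simp)
  map_one' := by ext x; simp
  map_mul' σ τ := by ext x; simp [AlgEquiv.mul_apply]

@[simp] theorem coe_actFixed (hDN : ∀ σ ∈ D, ∀ n ∈ N, σ⁻¹ * n * σ ∈ N) (σ : ↥D)
    (x : ↥(fixedField N)) : ((actFixed D N hDN σ x : ↥(fixedField N)) : Fb) = σ.1 (x : Fb) := rfl

/-- **Leaf F, literal form.**  `G := Fb ≃ₐ[F0] Fb` acts on the constants `L ⊆ Fb` through
`res : G → Gal(L/K)`; `O ⊇ L` a valuation subring of `Fb`; `D` maps onto `Gal(L/K)`; `N` is trivial on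
`L` and normalised by `D`; `H = D · N`; `Ω := fixedField N = L(w)` with `w ∉ O` and `σ w = α w + β` for
`σ ∈ D`; `D` acts smoothly on `Ω`.  Then `F' := fixedField H` has a parameter `s` with
`O.valuation s < 1`, transcendental over `K`, and `F' ⊆ K(s)`. -/
theorem descent_literal [IsGalois K L] [IsAlgClosed L]
    (res : (Fb ≃ₐ[F0] Fb) →* (L ≃ₐ[K] L))
    (hres : ∀ σ z, σ (algebraMap L Fb z) = algebraMap L Fb (res σ z))
    (O : ValuationSubring Fb) (hLO : ∀ z : L, algebraMap L Fb z ∈ O)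
    (H : Subgroup (Fb ≃ₐ[F0] Fb))
    (hDsurj : ∀ τ, ∃ σ ∈ D, res σ = τ)
    (hN : ∀ σ ∈ N, res σ = 1)
    (hDN : ∀ σ ∈ D, ∀ n ∈ N, σ⁻¹ * n * σ ∈ N)
    (hDH : D ≤ H) (hNH : N ≤ H)
    (hH : ∀ h ∈ H, ∃ d ∈ D, ∃ n ∈ N, h = d * n)
    (hsmooth : ∀ x ∈ fixedField N, ∃ E : IntermediateField K L, FiniteDimensional K E ∧
      ∀ σ ∈ D, res σ ∈ E.fixingSubgroup → σ x = x)
    (w : Fb) (hwΩ : w ∈ fixedField N)
    (hw : ∀ x ∈ fixedField N, x ∈ IntermediateField.adjoin L {w})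
    (hwO : w ∉ O)
    (hstab : ∀ σ ∈ D, ∃ α β : L, σ w = algebraMap L Fb α * w + algebraMap L Fb β) :
    ∃ s : Fb, s ∈ fixedField H ∧ O.valuation s < 1 ∧ Transcendental K s ∧
      ∀ z ∈ fixedField H, z ∈ IntermediateField.adjoin K {s} := by
  classical
  -- the constants inside `Ω`
  let ιL : L →+* ↥(fixedField N) := RingHom.codRestrict (algebraMap L Fb) (fixedField N)
    (fun z => by
      rw [mem_fixedField_iff]
      intro n hn
      rw [hres, hN n hn]; rfl)
  letI algL : Algebra L ↥(fixedField N) := ιL.toAlgebra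
  letI algK : Algebra K ↥(fixedField N) := (ιL.comp (algebraMap K L)).toAlgebra
  haveI : IsScalarTower K L ↥(fixedField N) := IsScalarTower.of_algebraMap_eq (fun x => rfl)
  haveI : IsScalarTower L ↥(fixedField N) Fb := IsScalarTower.of_algebraMap_eq (fun x => rfl)
  haveI : IsScalarTower K ↥(fixedField N) Fb := IsScalarTower.of_algebraMap_eq (fun x => by
    change algebraMap K Fb x = algebraMap L Fb (algebraMap K L x)
    exact IsScalarTower.algebraMap_apply K L Fb x)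
  let ψL : ↥(fixedField N) →ₐ[L] Fb := IsScalarTower.toAlgHom L ↥(fixedField N) Fb
  let ψK : ↥(fixedField N) →ₐ[K] Fb := IsScalarTower.toAlgHom K ↥(fixedField N) Fb
  have hψL : ∀ x : ↥(fixedField N), ψL x = (x : Fb) := fun x => rfl
  have hψK : ∀ x : ↥(fixedField N), ψK x = (x : Fb) := fun x => rfl
  have hψLinj : Function.Injective ψL := fun x y h => Subtype.ext h
  have hψKinj : Function.Injective ψK := fun x y h => Subtype.ext h
  -- the group data
  let ρ : ↥D →* (L ≃ₐ[K] L) := res.comp D.subtype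
  have hsurj : Function.Surjective ρ := by
    intro τ
    obtain ⟨σ, hσ, rfl⟩ := hDsurj τ
    exact ⟨⟨σ, hσ⟩, rfl⟩
  have hsemi : ∀ (γ : ↥D) (c : L), actFixed D N hDN γ (algebraMap L ↥(fixedField N) c)
      = algebraMap L ↥(fixedField N) (ρ γ c) := by
    intro γ c
    apply Subtype.ext
    change γ.1 (algebraMap L Fb c) = algebraMap L Fb (res γ.1 c)
    exact hres _ _
  have hsmooth' : ∀ x : ↥(fixedField N), ∃ E : IntermediateField K L, FiniteDimensional K E ∧
      ∀ γ : ↥D, ρ γ ∈ E.fixingSubgroup → actFixed D N hDN γ x = x := by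
    intro x
    obtain ⟨E, hE, hEx⟩ := hsmooth x.1 x.2
    exact ⟨E, hE, fun γ hγ => Subtype.ext (hEx γ.1 γ.2 hγ)⟩
  have hLO' : ∀ c : L, algebraMap ↥(fixedField N) Fb (algebraMap L ↥(fixedField N) c) ∈ O :=
    fun c => hLO c
  let w' : ↥(fixedField N) := ⟨w, hwΩ⟩
  have hw' : IntermediateField.adjoin L {w'} = ⊤ := by
    rw [eq_top_iff]
    intro x _
    have h1 : ψL x ∈ (IntermediateField.adjoin L {w'}).map ψL := by
      rw [IntermediateField.adjoin_map, Set.image_singleton]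
      exact hw x.1 x.2
    obtain ⟨y, hy, hyx⟩ := h1
    rwa [← hψLinj hyx]
  have hwO' : algebraMap ↥(fixedField N) Fb w' ∉ O := hwO
  have hstab' : ∀ γ : ↥D, ∃ α β : L, actFixed D N hDN γ w'
      = algebraMap L ↥(fixedField N) α * w' + algebraMap L ↥(fixedField N) β := by
    intro γ
    obtain ⟨α, β, hαβ⟩ := hstab γ.1 γ.2
    exact ⟨α, β, Subtype.ext hαβ⟩
  obtain ⟨s, hsfix, hsval, hsK, -, -, hsiff⟩ :=
    exists_descent_param (K := K) (L := L) (Ω := ↥(fixedField N)) (Fb := Fb) ρ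
      (actFixed D N hDN) hsemi hsurj hsmooth' O hLO' w' hw' hwO' hstab'
  refine ⟨(s : Fb), ?_, hsval, ?_, ?_⟩
  · rw [mem_fixedField_iff]
    intro h hh
    obtain ⟨d, hd, n, hn, rfl⟩ := hH h hh
    rw [AlgEquiv.mul_apply, (mem_fixedField_iff N (s : Fb)).mp s.2 n hn]
    exact congrArg Subtype.val (hsfix ⟨d, hd⟩)
  · intro halg
    apply hsK
    have : IsAlgebraic K (ψK s) := halg
    exact (isAlgebraic_algHom_iff ψK hψKinj).mp this
  · intro z hz
    have hzΩ : z ∈ fixedField N := by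
      rw [mem_fixedField_iff] at hz ⊢
      exact fun n hn => hz n (hNH hn)
    have hzfix : ∀ γ : ↥D, actFixed D N hDN γ ⟨z, hzΩ⟩ = ⟨z, hzΩ⟩ := by
      intro γ
      apply Subtype.ext
      exact (mem_fixedField_iff H z).mp hz γ.1 (hDH γ.2)
    have h1 := (hsiff ⟨z, hzΩ⟩).mp hzfix
    have h2 : ψK ⟨z, hzΩ⟩ ∈ (IntermediateField.adjoin K {s}).map ψK := ⟨_, h1, rfl⟩
    rw [IntermediateField.adjoin_map, Set.image_singleton] at h2
    exact h2

end Literal

end Fermat.Agent.SW.K1F
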