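import Fermat.Agent.SW.K1F.Speiser

/-!
# MOONSHOT S52, block K1, leaf F (DESCENT), file 2: a fixed non-constant function and `Ω^Γ = K(s)`

* `exists_fixed_not_const` (F2): a stable `L`-subspace of dimension `≥ 2` contains a fixed vector which
  is not a constant.
* `semilinear_aeval` : `act γ (q(s)) = (ρ γ • q)(s)` for a fixed `s`.
* `mem_adjoin_of_fixed` (F3): if `s` is fixed, transcendental over `L` and generates `Ω` over `L`, then
  every fixed element of `Ω` lies in `K(s)`; `fixed_iff_mem_adjoin` is the equivalence.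
-/

set_option autoImplicit false

namespace Fermat.Agent.SW.K1F

open Polynomial

section Rational

variable {K L Ω : Type*} [Field K] [Field L] [Algebra K L] [IsGalois K L] [Field Ω] [Algebra L Ω]
variable {Γ : Type*} [Group Γ] (ρ : Γ →* (L ≃ₐ[K] L)) (act : Γ →* (Ω ≃+* Ω))

/-- (F2) a stable `L`-subspace of dimension at least two contains a fixed non-constant vector. -/
theorem exists_fixed_not_const
    (hsemi : ∀ γ c, act γ (algebraMap L Ω c) = algebraMap L Ω (ρ γ c))
    (hsurj : Function.Surjective ρ)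
    (hsmooth : ∀ x : Ω, ∃ E : IntermediateField K L, FiniteDimensional K E ∧
      ∀ γ, ρ γ ∈ E.fixingSubgroup → act γ x = x)
    (V : Submodule L Ω) (hV : ∀ γ, ∀ v ∈ V, act γ v ∈ V)
    (hdim : 2 ≤ Module.finrank L V) :
    ∃ s ∈ V, (∀ γ, act γ s = s) ∧ s ∉ Set.range (algebraMap L Ω) := by
  by_contra hcon
  push Not at hcon
  have hle : V ≤ Submodule.span L {(1 : Ω)} := by
    rw [← span_fixed_eq ρ act hsemi hsurj hsmooth V hV]
    refine Submodule.span_le.mpr fun v hv => ?_
    obtain ⟨c, rfl⟩ := hcon v hv.1 hv.2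
    rw [Algebra.algebraMap_eq_smul_one]
    exact Submodule.smul_mem _ _ (Submodule.subset_span rfl)
  have h1 : Module.finrank L V ≤ Module.finrank L (Submodule.span L {(1 : Ω)}) :=
    Submodule.finrank_mono hle
  rw [finrank_span_singleton (one_ne_zero)] at h1
  omega

omit [IsGalois K L] in
/-- semilinearity on polynomial expressions in a fixed element. -/
theorem semilinear_aeval
    (hsemi : ∀ γ c, act γ (algebraMap L Ω c) = algebraMap L Ω (ρ γ c))
    {s : Ω} (hs : ∀ γ, act γ s = s) (γ : Γ) (q : L[X]) :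
    act γ (aeval s q) = aeval s (q.map ((ρ γ : L ≃ₐ[K] L) : L →+* L)) := by
  have h : ((act γ : Ω ≃+* Ω) : Ω →+* Ω).comp ((aeval s : L[X] →ₐ[L] Ω) : L[X] →+* Ω)
      = ((aeval s : L[X] →ₐ[L] Ω) : L[X] →+* Ω).comp (mapRingHom ((ρ γ : L ≃ₐ[K] L) : L →+* L)) := by
    apply Polynomial.ringHom_ext
    · intro c
      simp [hsemi]
    · simp [hs]
  exact RingHom.congr_fun h q

variable [Algebra K Ω] [IsScalarTower K L Ω]

/-- (F3) **rationality**: if the fixed element `s` is transcendental over `L` and generates `Ω` over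
`L`, every fixed element of `Ω` is a rational function of `s` with coefficients in `K`. -/
theorem mem_adjoin_of_fixed
    (hsemi : ∀ γ c, act γ (algebraMap L Ω c) = algebraMap L Ω (ρ γ c))
    (hsurj : Function.Surjective ρ)
    {s : Ω} (hs : ∀ γ, act γ s = s) (hst : Transcendental L s)
    (hgen : IntermediateField.adjoin L {s} = ⊤) {x : Ω} (hx : ∀ γ, act γ x = x) :
    x ∈ IntermediateField.adjoin K {s} := by
  classical
  have hinj : Function.Injective (aeval s : L[X] → Ω) := transcendental_iff_injective.mp hst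
  let P : ℕ → Prop := fun n =>
    ∃ q : L[X], q.Monic ∧ q.natDegree = n ∧ ∃ p : L[X], x * aeval s q = aeval s p
  have hex : ∃ n, P n := by
    have hxmem : x ∈ IntermediateField.adjoin L {s} := by rw [hgen]; trivial
    obtain ⟨r, t, hrt⟩ := (IntermediateField.mem_adjoin_simple_iff L x).mp hxmem
    by_cases ht : t = 0
    · refine ⟨0, 1, monic_one, natDegree_one, 0, ?_⟩
      simp [hrt, ht]
    · refine ⟨_, t * C t.leadingCoeff⁻¹, monic_mul_leadingCoeff_inv ht, rfl,
        r * C t.leadingCoeff⁻¹, ?_⟩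
      have hts : aeval s t ≠ 0 := fun h => ht (hinj (by simpa using h))
      rw [hrt]
      simp only [map_mul]
      field_simp
  obtain ⟨q0, hq0m, hq0d, p0, hp0⟩ := Nat.find_spec hex
  have huniq : ∀ q : L[X], q.Monic → q.natDegree = Nat.find hex →
      (∃ p : L[X], x * aeval s q = aeval s p) → q = q0 := by
    rintro q hqm hqd ⟨p, hp⟩
    by_contra hne
    have hd : q - q0 ≠ 0 := sub_ne_zero.mpr hne
    have hdeg : (q - q0).degree < q.degree :=
      degree_sub_lt_left (by
        rw [degree_eq_natDegree hqm.ne_zero, degree_eq_natDegree hq0m.ne_zero, hqd, hq0d])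
        hqm.ne_zero (by rw [hqm.leadingCoeff, hq0m.leadingCoeff])
    have hlt : (q - q0).natDegree < Nat.find hex := by
      rw [← hqd]; exact natDegree_lt_natDegree hd hdeg
    apply Nat.find_min hex hlt
    refine ⟨(q - q0) * C (q - q0).leadingCoeff⁻¹, monic_mul_leadingCoeff_inv hd,
      natDegree_mul_leadingCoeff_inv _ hd, (p - p0) * C (q - q0).leadingCoeff⁻¹, ?_⟩
    simp only [map_mul, map_sub]
    rw [← mul_assoc, mul_sub, hp, hp0]
  have hq0fix : ∀ γ, q0.map ((ρ γ : L ≃ₐ[K] L) : L →+* L) = q0 := by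
    intro γ
    apply huniq
    · exact hq0m.map _
    · rw [natDegree_map, hq0d]
    · refine ⟨p0.map ((ρ γ : L ≃ₐ[K] L) : L →+* L), ?_⟩
      rw [← semilinear_aeval ρ act hsemi hs, ← semilinear_aeval ρ act hsemi hs, ← hp0, map_mul, hx]
  have hp0fix : ∀ γ, p0.map ((ρ γ : L ≃ₐ[K] L) : L →+* L) = p0 := by
    intro γ
    apply hinj
    rw [← semilinear_aeval ρ act hsemi hs, ← hp0, map_mul, hx, semilinear_aeval ρ act hsemi hs,
      hq0fix]
  have hK : ∀ p : L[X], (∀ γ, p.map ((ρ γ : L ≃ₐ[K] L) : L →+* L) = p) →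
      ∃ p1 : K[X], p1.map (algebraMap K L) = p := by
    intro p hp
    have hmem : p ∈ Polynomial.lifts (algebraMap K L) := by
      rw [lifts_iff_coeff_lifts]
      intro n
      rw [InfiniteGalois.mem_range_algebraMap_iff_fixed]
      intro σ
      obtain ⟨γ, rfl⟩ := hsurj σ
      have := congrArg (fun r => r.coeff n) (hp γ)
      simpa [coeff_map] using this
    exact (mem_lifts p).mp hmem
  obtain ⟨q1, hq1⟩ := hK q0 hq0fix
  obtain ⟨p1, hp1⟩ := hK p0 hp0fix
  have hq0s : aeval s q0 ≠ 0 := fun h => hq0m.ne_zero (hinj (by simpa using h))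
  rw [IntermediateField.mem_adjoin_simple_iff]
  refine ⟨p1, q1, ?_⟩
  rw [← aeval_map_algebraMap L s p1, ← aeval_map_algebraMap L s q1, hp1, hq1, eq_div_iff hq0s, hp0]

omit [IsGalois K L] in
/-- the elements of `K(s)` are fixed. -/
theorem fixed_of_mem_adjoin
    (hsemi : ∀ γ c, act γ (algebraMap L Ω c) = algebraMap L Ω (ρ γ c))
    {s : Ω} (hs : ∀ γ, act γ s = s) {x : Ω} (hx : x ∈ IntermediateField.adjoin K {s}) (γ : Γ) :
    act γ x = x := by
  obtain ⟨r, t, rfl⟩ := (IntermediateField.mem_adjoin_simple_iff K x).mp hx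
  have key : ∀ r : K[X], act γ (aeval s r) = aeval s r := by
    intro r
    rw [← aeval_map_algebraMap L s r, semilinear_aeval ρ act hsemi hs, Polynomial.map_map]
    congr 2
    ext k
    simp
  rw [map_div₀, key, key]

/-- (F3) `Ω^Γ = K(s)`. -/
theorem fixed_iff_mem_adjoin
    (hsemi : ∀ γ c, act γ (algebraMap L Ω c) = algebraMap L Ω (ρ γ c))
    (hsurj : Function.Surjective ρ)
    {s : Ω} (hs : ∀ γ, act γ s = s) (hst : Transcendental L s)
    (hgen : IntermediateField.adjoin L {s} = ⊤) (x : Ω) :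
    (∀ γ, act γ x = x) ↔ x ∈ IntermediateField.adjoin K {s} :=
  ⟨mem_adjoin_of_fixed ρ act hsemi hsurj hs hst hgen, fun hx γ =>
    fixed_of_mem_adjoin ρ act hsemi hs hx γ⟩

end Rational

end Fermat.Agent.SW.K1F
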