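import Mathlib

/-!
# MOONSHOT S52, block K1, leaf F (DESCENT), file 1: Speiser's lemma (semilinear Galois descent)

`sum_dualBasis_mul_apply` : for a finite Galois extension `E/K`, a basis `b` and its trace-dual basis
`b*`: `∑ i, b*_i · τ (b_i) = δ_{τ,1}`.

`eq_sum_dualBasis_smul_twistedTrace` : the finite-level linear-algebra core: for a family `x τ`
(`τ ∈ Gal(E/K)`) in an `E`-module, `x 1 = ∑ i, b*_i • (∑ τ, τ (b_i) • x τ)`.
-/

set_option autoImplicit false

namespace Fermat.Agent.SW.K1F

section DualIdentity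

variable {K E : Type*} [Field K] [Field E] [Algebra K E] [FiniteDimensional K E] [IsGalois K E]

/-- Orthogonality of a basis and its trace-dual basis across Galois conjugates:
`∑ i, b*_i · τ (b_i) = δ_{τ,1}`. -/
theorem sum_dualBasis_mul_apply {ι : Type*} [Fintype ι] [DecidableEq ι]
    [DecidableEq (E ≃ₐ[K] E)] (b : Module.Basis ι K E) (τ : E ≃ₐ[K] E) :
    ∑ i, (Algebra.traceForm K E).dualBasis (traceForm_nondegenerate K E) b i * τ (b i)
      = if τ = 1 then 1 else 0 := by
  set d := (Algebra.traceForm K E).dualBasis (traceForm_nondegenerate K E) b with hd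
  let A : Matrix ι (E ≃ₐ[K] E) E := fun i σ => σ (b i)
  let B : Matrix (E ≃ₐ[K] E) ι E := fun σ j => σ (d j)
  have hAB : A * B = 1 := by
    ext i j
    simp only [Matrix.mul_apply, A, B, Matrix.one_apply]
    have h1 : ∑ σ : E ≃ₐ[K] E, σ (b i) * σ (d j)
        = algebraMap K E (Algebra.trace K E (b i * d j)) := by
      rw [trace_eq_sum_automorphisms]; simp [map_mul]
    rw [h1]
    have h2 : Algebra.trace K E (b i * d j) = if i = j then 1 else 0 := by
      have := LinearMap.BilinForm.apply_dualBasis_right (traceForm_nondegenerate K E)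
        (Algebra.traceForm_isSymm K) b i j
      simpa [Algebra.traceForm_apply] using this
    rw [h2]; split_ifs <;> simp
  have e : ι ≃ (E ≃ₐ[K] E) := Fintype.equivOfCardEq (by
    rw [← Nat.card_eq_fintype_card (α := E ≃ₐ[K] E), IsGalois.card_aut_eq_finrank,
      Module.finrank_eq_card_basis b])
  have hBA : B * A = 1 := (Matrix.mul_eq_one_comm_of_equiv e).mp hAB
  have := congrFun (congrFun hBA 1) τ
  simp only [Matrix.mul_apply, A, B, Matrix.one_apply, AlgEquiv.one_apply] at this
  rw [this]
  by_cases h : τ = 1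
  · subst h; simp
  · have h' : ¬ (1 : E ≃ₐ[K] E) = τ := fun h' => h h'.symm
    rw [if_neg h, if_neg h']

/-- finite-level core: for a family `x τ` (`τ ∈ Gal(E/K)`) in a commutative ring `R` receiving `E`,
`x 1 = ∑ i, φ (b*_i) * (∑ τ, φ (τ (b_i)) * x τ)`. -/
theorem eq_sum_dualBasis_mul_twistedTrace {R : Type*} [CommRing R] (φ : E →+* R)
    {ι : Type*} [Fintype ι] [DecidableEq ι] (b : Module.Basis ι K E) (x : (E ≃ₐ[K] E) → R) :
    ∑ i, φ ((Algebra.traceForm K E).dualBasis (traceForm_nondegenerate K E) b i) *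
        ∑ τ, φ (τ (b i)) * x τ = x 1 := by
  classical
  simp_rw [Finset.mul_sum, ← mul_assoc, ← map_mul]
  rw [Finset.sum_comm]
  simp_rw [← Finset.sum_mul, ← map_sum, sum_dualBasis_mul_apply]
  rw [Finset.sum_eq_single (1 : E ≃ₐ[K] E)]
  · simp
  · intro τ _ hτ; simp [hτ]
  · intro h; exact absurd (Finset.mem_univ _) h

end DualIdentity

section Speiser

variable {K L Ω : Type*} [Field K] [Field L] [Algebra K L] [IsGalois K L] [Field Ω] [Algebra L Ω]
variable {Γ : Type*} [Group Γ] (ρ : Γ →* (L ≃ₐ[K] L)) (act : Γ →* (Ω ≃+* Ω))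

/-- **Speiser's lemma, finite level.** `Γ` acts on `Ω` semilinearly over `ρ : Γ → Gal(L/K)`
(surjective); `V` is a stable `L`-subspace; if `x ∈ V` is fixed by every `γ` with `ρ γ` trivial on
the finite Galois subextension `E`, then `x` is an `L`-combination of fixed vectors of `V`. -/
theorem mem_span_fixed_of_finite_level
    (hsemi : ∀ γ c, act γ (algebraMap L Ω c) = algebraMap L Ω (ρ γ c))
    (hsurj : Function.Surjective ρ)
    (V : Submodule L Ω) (hV : ∀ γ, ∀ v ∈ V, act γ v ∈ V)
    (E : IntermediateField K L) [FiniteDimensional K E] [IsGalois K E]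
    {x : Ω} (hxV : x ∈ V) (hx : ∀ γ, ρ γ ∈ E.fixingSubgroup → act γ x = x) :
    x ∈ Submodule.span L {v | v ∈ V ∧ ∀ γ, act γ v = v} := by
  classical
  -- restriction to `E`
  let res : (L ≃ₐ[K] L) →* (E ≃ₐ[K] E) := AlgEquiv.restrictNormalHom E
  have hres : Function.Surjective res := AlgEquiv.restrictNormalHom_surjective L
  have hresρ : Function.Surjective (fun γ => res (ρ γ)) := hres.comp hsurj
  -- chosen lifts
  let lift : (E ≃ₐ[K] E) → Γ := fun τ => (hresρ τ).choose
  have hlift : ∀ τ, res (ρ (lift τ)) = τ := fun τ => (hresρ τ).choose_spec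
  -- independence of the lift
  have key : ∀ γ τ, res (ρ γ) = τ → act γ x = act (lift τ) x := by
    intro γ τ hγ
    have h1 : ρ ((lift τ)⁻¹ * γ) ∈ E.fixingSubgroup := by
      rw [← IntermediateField.restrictNormalHom_ker E, MonoidHom.mem_ker, map_mul, map_mul,
        map_inv, map_inv]
      change (res (ρ (lift τ)))⁻¹ * res (ρ γ) = 1
      rw [hlift, hγ, inv_mul_cancel]
    have h2 := hx _ h1
    rw [map_mul, RingAut.mul_apply] at h2
    have h3 := congrArg (act (lift τ)) h2
    rw [← RingAut.mul_apply, ← map_mul, mul_inv_cancel, map_one, RingAut.one_apply] at h3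
    exact h3
  -- the ring hom `E → Ω`
  let φ : E →+* Ω := (algebraMap L Ω).comp (algebraMap E L)
  -- semilinearity on `E`
  have hφ : ∀ γ (c : E), act γ (φ c) = φ (res (ρ γ) c) := by
    intro γ c
    change act γ (algebraMap L Ω (algebraMap E L c)) = algebraMap L Ω (algebraMap E L (res (ρ γ) c))
    rw [hsemi]
    congr 1
    exact (AlgEquiv.restrictNormal_commutes (ρ γ) E c).symm
  let b := Module.finBasis K E
  let T : Fin (Module.finrank K E) → Ω := fun i => ∑ τ : E ≃ₐ[K] E, φ (τ (b i)) * act (lift τ) x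
  have hTV : ∀ i, T i ∈ V := by
    intro i
    refine Submodule.sum_mem _ fun τ _ => ?_
    have : φ (τ (b i)) * act (lift τ) x = (algebraMap E L (τ (b i))) • act (lift τ) x := by
      rw [Algebra.smul_def]; rfl
    rw [this]
    exact V.smul_mem _ (hV _ _ hxV)
  have hTfix : ∀ i γ, act γ (T i) = T i := by
    intro i γ
    simp only [T, map_sum, map_mul, hφ]
    set σ := res (ρ γ) with hσ
    have hstep : ∀ τ : E ≃ₐ[K] E, act γ (act (lift τ) x) = act (lift (σ * τ)) x := by
      intro τ
      rw [← RingAut.mul_apply, ← map_mul]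
      apply key
      rw [map_mul, map_mul]
      change res (ρ γ) * res (ρ (lift τ)) = σ * τ
      rw [hlift]
    simp_rw [hstep]
    exact Fintype.sum_equiv (Equiv.mulLeft σ) _ _ (fun τ => by simp [AlgEquiv.mul_apply])
  have hx1 : act (lift 1) x = x := by
    have := key 1 1 (by simp)
    rw [map_one, RingAut.one_apply] at this
    exact this.symm
  have hsum := eq_sum_dualBasis_mul_twistedTrace (K := K) (E := E) φ b (fun τ => act (lift τ) x)
  rw [hx1] at hsum
  rw [← hsum]
  refine Submodule.sum_mem _ fun i _ => ?_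
  have : φ ((Algebra.traceForm K E).dualBasis (traceForm_nondegenerate K E) b i) * T i
      = (algebraMap E L ((Algebra.traceForm K E).dualBasis (traceForm_nondegenerate K E) b i))
          • T i := by
    rw [Algebra.smul_def]; rfl
  change φ _ * T i ∈ _
  rw [this]
  exact Submodule.smul_mem _ _ (Submodule.subset_span ⟨hTV i, hTfix i⟩)

/-- **Speiser's lemma (semilinear Galois descent), smooth form.** -/
theorem span_fixed_eq
    (hsemi : ∀ γ c, act γ (algebraMap L Ω c) = algebraMap L Ω (ρ γ c))
    (hsurj : Function.Surjective ρ)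
    (hsmooth : ∀ x : Ω, ∃ E : IntermediateField K L, FiniteDimensional K E ∧
      ∀ γ, ρ γ ∈ E.fixingSubgroup → act γ x = x)
    (V : Submodule L Ω) (hV : ∀ γ, ∀ v ∈ V, act γ v ∈ V) :
    Submodule.span L {v | v ∈ V ∧ ∀ γ, act γ v = v} = V := by
  refine le_antisymm (Submodule.span_le.mpr fun v hv => hv.1) fun x hxV => ?_
  obtain ⟨E, hE, hEx⟩ := hsmooth x
  have := hE
  let E' := IntermediateField.normalClosure K E L
  have : FiniteDimensional K E' := normalClosure.is_finiteDimensional K E L
  have : Normal K E' := normalClosure.normal K E L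
  have : IsGalois K E' := ⟨⟩
  exact mem_span_fixed_of_finite_level ρ act hsemi hsurj V hV E' hxV fun γ hγ =>
    hEx γ (E.fixingSubgroup_antitone E.le_normalClosure hγ)

end Speiser

end Fermat.Agent.SW.K1F
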